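import Mathlib

/-!
# S56, node [LOC-p-ORD], cell (C) [KUM], part (K1): the mod `p` cyclotomic character and the
Kummer cocycles of `G_ℚ` (prefix `s56k_`)

Mathlib only.  `ζ = s56k_zeta p` is a fixed primitive `p`-th root of unity of `Q̄`.

* `s56k_E ζ : ZMod p → K`, `t ↦ ζ ^ t.val`, the exponential of a primitive `p`-th root of unity of
  a field `K`: additive-to-multiplicative, injective, onto the `p`-th roots of unity; `s56k_log ζ`
  its inverse (`0` outside the roots of unity).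
* `s56k_chi p : G_ℚ → ZMod p`, the mod `p` cyclotomic character (`σ μ = μ ^ (χ σ).val` for all
  `μ ^ p = 1`), multiplicative, `s56k_chi_eq` (it is the unique function with this property).
* `s56k_kum p β : G_ℚ → ZMod p`, `σ ↦ log (σ β / β)`, the Kummer function of `β`.  If
  `σ (β ^ p) = β ^ p` for the elements of a subgroup `H`, it is a `χ`-cocycle on `H`
  (`s56k_kum_cocycle`); it is constant modulo the stabiliser of `β` (`s56k_kum_mul_of_fix`).
-/

set_option autoImplicit false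
set_option linter.unusedSectionVars false

namespace Fermat.Agent.S56

local notation "Qbar" => AlgebraicClosure ℚ
local notation "GQ" => (AlgebraicClosure ℚ ≃ₐ[ℚ] AlgebraicClosure ℚ)

variable {p : ℕ} [hp : Fact p.Prime]

section Exp

variable {K : Type*} [Field K] (ζ : K)

/-- `t ↦ ζ ^ t`, `t : ZMod p`. -/
def s56k_E (t : ZMod p) : K := ζ ^ t.val

variable {ζ}

theorem s56k_E_zero : s56k_E ζ (0 : ZMod p) = 1 := by
  rw [s56k_E, ZMod.val_zero, pow_zero]

theorem s56k_E_natCast (hζ : ζ ^ p = 1) (n : ℕ) : s56k_E ζ ((n : ℕ) : ZMod p) = ζ ^ n := by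
  rw [s56k_E, ZMod.val_natCast, ← pow_eq_pow_mod n hζ]

theorem s56k_E_add (hζ : ζ ^ p = 1) (s t : ZMod p) :
    s56k_E ζ (s + t) = s56k_E ζ s * s56k_E ζ t := by
  rw [s56k_E, s56k_E, s56k_E, ZMod.val_add, ← pow_eq_pow_mod _ hζ, pow_add]

theorem s56k_E_mul (hζ : ζ ^ p = 1) (s t : ZMod p) :
    s56k_E ζ (s * t) = s56k_E ζ s ^ t.val := by
  rw [s56k_E, s56k_E, ZMod.val_mul, ← pow_eq_pow_mod _ hζ, pow_mul]

theorem s56k_E_mul' (hζ : ζ ^ p = 1) (s t : ZMod p) :
    s56k_E ζ (s * t) = s56k_E ζ t ^ s.val := by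
  rw [mul_comm, s56k_E_mul hζ]

theorem s56k_E_pow_p (hζ : ζ ^ p = 1) (t : ZMod p) : s56k_E ζ t ^ p = 1 := by
  rw [s56k_E, ← pow_mul, mul_comm, pow_mul, hζ, one_pow]

theorem s56k_E_ne_zero (hζ : ζ ^ p = 1) (t : ZMod p) : s56k_E ζ t ≠ 0 := by
  intro h
  have := s56k_E_pow_p hζ t
  rw [h, zero_pow hp.out.ne_zero] at this
  exact zero_ne_one this

theorem s56k_E_neg (hζ : ζ ^ p = 1) (t : ZMod p) : s56k_E ζ (-t) = (s56k_E ζ t)⁻¹ := by
  have h := s56k_E_add hζ (-t) t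
  rw [neg_add_cancel, s56k_E_zero] at h
  exact eq_inv_of_mul_eq_one_left h.symm

theorem s56k_E_sub (hζ : ζ ^ p = 1) (s t : ZMod p) :
    s56k_E ζ (s - t) = s56k_E ζ s / s56k_E ζ t := by
  rw [sub_eq_add_neg, s56k_E_add hζ, s56k_E_neg hζ, div_eq_mul_inv]

theorem s56k_E_intCast (hζ : ζ ^ p = 1) (n : ℤ) : s56k_E ζ ((n : ℤ) : ZMod p) = ζ ^ n := by
  induction n using Int.induction_on with
  | zero => simp [s56k_E_zero]
  | succ n ih =>
    have hζ0 : ζ ≠ 0 := by
      intro h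
      rw [h, zero_pow hp.out.ne_zero] at hζ
      exact zero_ne_one hζ
    have h1 : s56k_E ζ (1 : ZMod p) = ζ := by
      have := s56k_E_natCast (p := p) hζ 1
      simpa using this
    rw [Int.cast_add, Int.cast_one, s56k_E_add hζ, ih, h1, zpow_add_one₀ hζ0]
  | pred n ih =>
    have hζ0 : ζ ≠ 0 := by
      intro h
      rw [h, zero_pow hp.out.ne_zero] at hζ
      exact zero_ne_one hζ
    have h1 : s56k_E ζ (1 : ZMod p) = ζ := by
      have := s56k_E_natCast (p := p) hζ 1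
      simpa using this
    rw [Int.cast_sub, Int.cast_one, s56k_E_sub hζ, ih, h1, zpow_sub_one₀ hζ0, div_eq_mul_inv]

theorem s56k_E_zsmul (hζ : ζ ^ p = 1) (n : ℤ) (t : ZMod p) :
    s56k_E ζ ((n : ZMod p) * t) = s56k_E ζ t ^ n := by
  have hne := s56k_E_ne_zero hζ t
  induction n using Int.induction_on with
  | zero => simp [s56k_E_zero]
  | succ n ih =>
    rw [Int.cast_add, Int.cast_one, add_mul, one_mul, s56k_E_add hζ, ih, zpow_add_one₀ hne]
  | pred n ih =>
    rw [Int.cast_sub, Int.cast_one, sub_mul, one_mul, s56k_E_sub hζ, ih, zpow_sub_one₀ hne,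
      div_eq_mul_inv]

theorem s56k_E_injective (hζ : IsPrimitiveRoot ζ p) :
    Function.Injective (s56k_E ζ : ZMod p → K) := by
  intro s t h
  have := hζ.pow_inj (ZMod.val_lt s) (ZMod.val_lt t) h
  exact ZMod.val_injective p this

theorem s56k_E_surj (hζ : IsPrimitiveRoot ζ p) {z : K} (hz : z ^ p = 1) :
    ∃ t : ZMod p, s56k_E ζ t = z := by
  obtain ⟨i, -, hi⟩ := hζ.eq_pow_of_pow_eq_one hz
  exact ⟨(i : ZMod p), by rw [s56k_E_natCast hζ.pow_eq_one, hi]⟩

variable (ζ)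

open Classical in
/-- The discrete logarithm with respect to `ζ` (`0` outside the `p`-th roots of unity). -/
noncomputable def s56k_log (z : K) : ZMod p :=
  if h : ∃ t : ZMod p, s56k_E ζ t = z then h.choose else 0

variable {ζ}

theorem s56k_E_log (hζ : IsPrimitiveRoot ζ p) {z : K} (hz : z ^ p = 1) :
    s56k_E ζ (s56k_log (p := p) ζ z) = z := by
  have h := s56k_E_surj hζ hz
  rw [s56k_log, dif_pos h]
  exact h.choose_spec

theorem s56k_log_E (hζ : IsPrimitiveRoot ζ p) (t : ZMod p) :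
    s56k_log (p := p) ζ (s56k_E ζ t) = t :=
  s56k_E_injective hζ (s56k_E_log hζ (s56k_E_pow_p hζ.pow_eq_one t))

theorem s56k_log_eq (hζ : IsPrimitiveRoot ζ p) {z : K} {t : ZMod p} (h : s56k_E ζ t = z) :
    s56k_log (p := p) ζ z = t := by
  rw [← h, s56k_log_E hζ]

end Exp

section Global

variable (p)

/-- A primitive `p`-th root of unity of `Q̄`. -/
noncomputable def s56k_zeta : Qbar :=
  (HasEnoughRootsOfUnity.exists_primitiveRoot Qbar p).choose

theorem s56k_zeta_spec : IsPrimitiveRoot (s56k_zeta p) p :=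
  (HasEnoughRootsOfUnity.exists_primitiveRoot Qbar p).choose_spec

theorem s56k_zeta_pow : s56k_zeta p ^ p = 1 := (s56k_zeta_spec p).pow_eq_one

/-- **The mod `p` cyclotomic character** of `G_ℚ`. -/
noncomputable def s56k_chi (σ : GQ) : ZMod p :=
  s56k_log (p := p) (s56k_zeta p) (σ (s56k_zeta p))

theorem s56k_chi_zeta (σ : GQ) :
    σ (s56k_zeta p) = s56k_E (s56k_zeta p) (s56k_chi p σ) := by
  rw [s56k_chi, s56k_E_log (s56k_zeta_spec p)]
  rw [← map_pow, s56k_zeta_pow, map_one]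

/-- `σ` acts on the exponential through `χ σ`. -/
theorem s56k_map_E (σ : GQ) (t : ZMod p) :
    σ (s56k_E (s56k_zeta p) t) = s56k_E (s56k_zeta p) (s56k_chi p σ * t) := by
  rw [s56k_E_mul (s56k_zeta_pow p), ← s56k_chi_zeta]
  rw [s56k_E, map_pow]

/-- `σ μ = μ ^ χ(σ)` for every `p`-th root of unity `μ`. -/
theorem s56k_chi_spec (σ : GQ) (μ : Qbar) (hμ : μ ^ p = 1) :
    σ μ = μ ^ (s56k_chi p σ).val := by
  obtain ⟨t, rfl⟩ := s56k_E_surj (s56k_zeta_spec p) hμ
  rw [s56k_map_E, s56k_E_mul' (s56k_zeta_pow p)]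

/-- `χ` is determined by the action on the `p`-th roots of unity. -/
theorem s56k_chi_eq (σ : GQ) (a : ℕ) (h : ∀ μ : Qbar, μ ^ p = 1 → σ μ = μ ^ a) :
    s56k_chi p σ = (a : ZMod p) := by
  apply s56k_E_injective (s56k_zeta_spec p)
  rw [← s56k_chi_zeta, h _ (s56k_zeta_pow p), s56k_E_natCast (s56k_zeta_pow p)]

/-- the natural number `(χ σ).val` has the defining property of the frozen statements. -/
theorem s56k_chi_val_eq {R : Type*} [Ring R] [CharP R p] (σ : GQ) (a : ℕ)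
    (h : ∀ μ : Qbar, μ ^ p = 1 → σ μ = μ ^ a) :
    (((s56k_chi p σ).val : ℕ) : R) = (a : R) := by
  rw [s56k_chi_eq p σ a h, ZMod.val_natCast]
  exact (CharP.natCast_eq_natCast' R p (Nat.mod_modEq a p))

theorem s56k_chi_one : s56k_chi p (1 : GQ) = 1 := by
  have := s56k_chi_eq p (1 : GQ) 1 (fun μ _ => by simp)
  simpa using this

theorem s56k_chi_mul (σ τ : GQ) : s56k_chi p (σ * τ) = s56k_chi p σ * s56k_chi p τ := by
  apply s56k_E_injective (s56k_zeta_spec p)
  rw [← s56k_chi_zeta, AlgEquiv.mul_apply, s56k_chi_zeta p τ, s56k_map_E]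

/-- `χ` is constant modulo the stabiliser of `ζ`. -/
theorem s56k_chi_of_fix (s : GQ) (hs : s (s56k_zeta p) = s56k_zeta p) : s56k_chi p s = 1 := by
  apply s56k_E_injective (s56k_zeta_spec p)
  rw [← s56k_chi_zeta, hs]
  have := s56k_E_natCast (p := p) (s56k_zeta_pow p) 1
  simpa using this.symm

/-- **The Kummer function of `β`**: `σ ↦ log (σ β / β)`. -/
noncomputable def s56k_kum (β : Qbar) (σ : GQ) : ZMod p :=
  s56k_log (p := p) (s56k_zeta p) (σ β / β)

variable {p}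

/-- `σ β = ζ ^ κ(σ) · β` when `σ` fixes `β ^ p`. -/
theorem s56k_kum_spec {β : Qbar} (hβ : β ≠ 0) {σ : GQ} (hσ : σ (β ^ p) = β ^ p) :
    σ β = s56k_E (s56k_zeta p) (s56k_kum p β σ) * β := by
  rw [s56k_kum, s56k_E_log (s56k_zeta_spec p), div_mul_cancel₀ _ hβ]
  rw [div_pow, ← map_pow, hσ, div_self (pow_ne_zero _ hβ)]

/-- the Kummer function is determined by `σ β = ζ ^ t · β`. -/
theorem s56k_kum_eq {β : Qbar} (hβ : β ≠ 0) {σ : GQ} {t : ZMod p}
    (h : σ β = s56k_E (s56k_zeta p) t * β) : s56k_kum p β σ = t := by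
  rw [s56k_kum, h, mul_div_assoc, div_self hβ, mul_one, s56k_log_E (s56k_zeta_spec p)]

/-- **The cocycle relation** `κ(στ) = κ(σ) + χ(σ) κ(τ)` for `σ, τ` fixing `β ^ p`. -/
theorem s56k_kum_cocycle {β : Qbar} (hβ : β ≠ 0) {σ τ : GQ} (hσ : σ (β ^ p) = β ^ p)
    (hτ : τ (β ^ p) = β ^ p) :
    s56k_kum p β (σ * τ) = s56k_kum p β σ + s56k_chi p σ * s56k_kum p β τ := by
  apply s56k_kum_eq hβ
  rw [AlgEquiv.mul_apply, s56k_kum_spec hβ hτ, map_mul, s56k_map_E, s56k_kum_spec hβ hσ,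
    s56k_E_add (s56k_zeta_pow p)]
  ring

/-- the Kummer function is constant modulo the stabiliser of `β`. -/
theorem s56k_kum_mul_of_fix (β : Qbar) (σ s : GQ) (hs : s β = β) :
    s56k_kum p β (σ * s) = s56k_kum p β σ := by
  rw [s56k_kum, s56k_kum, AlgEquiv.mul_apply, hs]

theorem s56k_kum_of_fix {β : Qbar} (hβ : β ≠ 0) (s : GQ) (hs : s β = β) :
    s56k_kum p β s = 0 := by
  rw [s56k_kum, hs, div_self hβ]
  exact s56k_log_eq (s56k_zeta_spec p) s56k_E_zero

end Global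

end Fermat.Agent.S56
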