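import Mathlib
import Fermat.Agent.S55.SecondIneq.PthPower

/-!
# S56, node [LOC-p-ORD], cell (C) [KUM], part (K2): `ℚ_p^× = p^ℤ · (1+p)^ℤ · (ℚ_p^×)^p` (prefix `s56k_`)

For an odd prime `p`:

* `s56k_mem_span_iff` : membership in `(p)` of `ℤ_[p]` is the vanishing of `toZMod`;
* `s56k_isUnit_one_add_p` : `1 + p` is a unit of `ℤ_[p]`;
* `s56k_unit_decomp` : every unit `u` of `ℤ_[p]` satisfies `u * (1 + p) ^ b = y ^ p` for some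
  `b : ℕ` and some unit `y` (`u = u ^ p * (u ^ (p - 1))⁻¹`, `u ^ (p - 1) ≡ 1 + p b mod p ^ 2`, and
  `1 + p ^ 2 ℤ_p` consists of `p`-th powers: `si_pp_exists_pth_root_padic`);
* `s56k_padic_decomp` : every `x ≠ 0` of `ℚ_[p]` is `p ^ a * (1 + p) ^ b * y ^ p`, `a b : ℤ`.

So `ℚ_p^× / (ℚ_p^×)^p` is generated by the classes of `p` and `1 + p` (it has dimension `≤ 2` over
`𝔽_p`).
-/

set_option autoImplicit false

namespace Fermat.Agent.S56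

open Fermat.Agent.S55

variable (p : ℕ) [hp : Fact p.Prime]

theorem s56k_mem_span_iff (x : ℤ_[p]) :
    (p : ℤ_[p]) ∣ x ↔ PadicInt.toZMod x = 0 := by
  rw [← Ideal.mem_span_singleton, ← PadicInt.maximalIdeal_eq_span_p, ← PadicInt.ker_toZMod,
    RingHom.mem_ker]

theorem s56k_isUnit_of_toZMod_ne_zero {x : ℤ_[p]} (hx : PadicInt.toZMod x ≠ 0) : IsUnit x := by
  by_contra h
  have h1 : x ∈ IsLocalRing.maximalIdeal ℤ_[p] := (IsLocalRing.mem_maximalIdeal x).2 h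
  rw [← PadicInt.ker_toZMod, RingHom.mem_ker] at h1
  exact hx h1

theorem s56k_toZMod_ne_zero_of_isUnit {x : ℤ_[p]} (hx : IsUnit x) : PadicInt.toZMod x ≠ 0 :=
  (hx.map (PadicInt.toZMod (p := p))).ne_zero

theorem s56k_isUnit_one_add_p : IsUnit (1 + (p : ℤ_[p])) := by
  apply s56k_isUnit_of_toZMod_ne_zero
  rw [map_add, map_one, map_natCast, ZMod.natCast_self, add_zero]
  exact one_ne_zero

/-- **Units of `ℤ_p` modulo `p`-th powers are generated by `1 + p`** (`p` odd). -/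
theorem s56k_unit_decomp (hp2 : p ≠ 2) (u : ℤ_[p]) (hu : IsUnit u) :
    ∃ (b : ℕ) (y : ℤ_[p]), IsUnit y ∧ u * (1 + (p : ℤ_[p])) ^ b = y ^ p := by
  have hpp : p.Prime := hp.out
  -- `w = u ^ (p - 1) = 1 + p t`
  have hu0 : PadicInt.toZMod u ≠ 0 := s56k_toZMod_ne_zero_of_isUnit p hu
  obtain ⟨t, ht⟩ : (p : ℤ_[p]) ∣ u ^ (p - 1) - 1 := by
    rw [s56k_mem_span_iff, map_sub, map_pow, map_one, ZMod.pow_card_sub_one_eq_one hu0, sub_self]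
  -- `t = b₀ + p t'`
  set b₀ : ℕ := (PadicInt.toZMod t).val with hb₀
  obtain ⟨t', ht'⟩ : (p : ℤ_[p]) ∣ t - (b₀ : ℤ_[p]) := by
    rw [s56k_mem_span_iff, map_sub, map_natCast, hb₀, ZMod.natCast_zmod_val, sub_self]
  -- `(1 + p) ^ b₀ = 1 + b₀ p + C p² + p³ s`
  obtain ⟨s, hs⟩ := si_pp_one_add_pow ℤ_[p] (p : ℤ_[p]) b₀
  obtain ⟨e, he⟩ := (s56k_isUnit_one_add_p p)
  -- `v = w / (1 + p) ^ b₀ ≡ 1 mod p²`
  have hv : u ^ (p - 1) * ((e ^ b₀)⁻¹ : ℤ_[p]ˣ) - 1 ∈ Ideal.span {(p : ℤ_[p])} ^ 2 := by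
    rw [Ideal.span_singleton_pow, Ideal.mem_span_singleton]
    refine ⟨(t' - (b₀.choose 2 : ℕ) - (p : ℤ_[p]) * s) * ((e ^ b₀)⁻¹ : ℤ_[p]ˣ), ?_⟩
    have h1 : u ^ (p - 1) = 1 + (p : ℤ_[p]) * ((b₀ : ℤ_[p]) + (p : ℤ_[p]) * t') := by
      have : t = (b₀ : ℤ_[p]) + (p : ℤ_[p]) * t' := by rw [← ht']; ring
      rw [← this, ← ht]; ring
    have h2 : ((e ^ b₀ : ℤ_[p]ˣ) : ℤ_[p]) * ((e ^ b₀)⁻¹ : ℤ_[p]ˣ) = 1 := by
      rw [← Units.val_mul, mul_inv_cancel, Units.val_one]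
    have h3 : ((e ^ b₀ : ℤ_[p]ˣ) : ℤ_[p]) = 1 + (b₀ : ℤ_[p]) * (p : ℤ_[p])
        + ((b₀.choose 2 : ℕ) : ℤ_[p]) * (p : ℤ_[p]) ^ 2 + (p : ℤ_[p]) ^ 3 * s := by
      rw [Units.val_pow_eq_pow_val, he, hs]
    calc u ^ (p - 1) * ((e ^ b₀)⁻¹ : ℤ_[p]ˣ) - 1
        = (u ^ (p - 1) - ((e ^ b₀ : ℤ_[p]ˣ) : ℤ_[p])) * ((e ^ b₀)⁻¹ : ℤ_[p]ˣ) := by
          rw [sub_mul, h2]
      _ = _ := by rw [h1, h3]; ring
  obtain ⟨z, hz, -⟩ := si_pp_exists_pth_root_padic p hp2 ℤ_[p] 2 le_rfl _ hv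
  -- `z` is a unit
  have hzu : IsUnit z := by
    have h1 : IsUnit (z ^ p) := by
      rw [hz]
      exact (hu.pow _).mul (Units.isUnit _)
    exact (isUnit_pow_iff hpp.ne_zero).1 h1
  obtain ⟨z', rfl⟩ := hzu
  refine ⟨b₀, u * ((z'⁻¹ : ℤ_[p]ˣ) : ℤ_[p]), hu.mul (Units.isUnit _), ?_⟩
  -- `u ^ p = u * w = u * (1+p)^b₀ * z^p`
  have h4 : u ^ (p - 1) = (z' : ℤ_[p]) ^ p * ((e ^ b₀ : ℤ_[p]ˣ) : ℤ_[p]) := by
    rw [hz, mul_assoc, ← Units.val_mul, inv_mul_cancel, Units.val_one, mul_one]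
  have h5 : u ^ p = u * u ^ (p - 1) := by
    rw [← pow_succ', Nat.sub_add_cancel hpp.one_le]
  have h6 : ((z'⁻¹ : ℤ_[p]ˣ) : ℤ_[p]) ^ p * (z' : ℤ_[p]) ^ p = 1 := by
    rw [← mul_pow, ← Units.val_mul, inv_mul_cancel, Units.val_one, one_pow]
  rw [mul_pow, h5, h4, Units.val_pow_eq_pow_val, he]
  calc u * (1 + (p : ℤ_[p])) ^ b₀
      = u * (1 + (p : ℤ_[p])) ^ b₀ * (((z'⁻¹ : ℤ_[p]ˣ) : ℤ_[p]) ^ p * (z' : ℤ_[p]) ^ p) := by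
        rw [h6, mul_one]
    _ = _ := by ring

/-- **`ℚ_p^×` modulo `p`-th powers is generated by `p` and `1 + p`** (`p` odd). -/
theorem s56k_padic_decomp (hp2 : p ≠ 2) (x : ℚ_[p]) (hx : x ≠ 0) :
    ∃ (a b : ℤ) (y : ℚ_[p]), y ≠ 0 ∧ x = (p : ℚ_[p]) ^ a * (1 + (p : ℚ_[p])) ^ b * y ^ p := by
  have hpp : p.Prime := hp.out
  have hp0 : (p : ℚ_[p]) ≠ 0 := by exact_mod_cast hpp.ne_zero
  -- `x = p ^ n * u`
  set n : ℤ := x.valuation with hn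
  have hnorm : ‖x * (p : ℚ_[p]) ^ (-n)‖ = 1 := by
    rw [norm_mul, Padic.norm_eq_zpow_neg_valuation hx, Padic.norm_p_zpow, neg_neg, ← hn,
      ← zpow_add₀ (by exact_mod_cast hpp.ne_zero : (p : ℝ) ≠ 0), neg_add_cancel, zpow_zero]
  set u : ℤ_[p]ˣ := PadicInt.mkUnits hnorm with hu
  have hux : ((u : ℤ_[p]) : ℚ_[p]) = x * (p : ℚ_[p]) ^ (-n) := PadicInt.mkUnits_eq hnorm
  obtain ⟨b, y, hy, hb⟩ := s56k_unit_decomp p hp2 (u : ℤ_[p]) u.isUnit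
  have h1p : (1 + (p : ℚ_[p])) ≠ 0 := by
    have h := (s56k_isUnit_one_add_p p).ne_zero
    intro h0
    apply h
    apply PadicInt.ext
    simpa using h0
  have hy0 : ((y : ℤ_[p]) : ℚ_[p]) ≠ 0 := by
    intro h0
    exact hy.ne_zero (by apply PadicInt.ext; simpa using h0)
  refine ⟨n, -(b : ℤ), (y : ℚ_[p]), hy0, ?_⟩
  have hb' : ((u : ℤ_[p]) : ℚ_[p]) * (1 + (p : ℚ_[p])) ^ b = ((y : ℤ_[p]) : ℚ_[p]) ^ p := by
    have := congrArg (fun z : ℤ_[p] => (z : ℚ_[p])) hb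
    simpa using this
  rw [← hb', hux, zpow_neg, zpow_neg, zpow_natCast]
  field_simp
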