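import Mathlib
import Fermat.Agent.S56.Kum.Cyclo
import Fermat.Agent.S56.Kum.Units
import Fermat.Agent.S55.Trans.LocH90
import Fermat.Agent.S55.LocalImage

/-!
# S56, node [LOC-p-ORD], cell (C) [KUM]: `dim H¹_lc(D_p, 𝔽_p(ω)) ≤ 2` (prefix `s56k_`)

`D = (padicPlace p).decompositionSubgroup ℚ ⊂ G_ℚ`, `p` odd, `χ = s56k_chi p` the mod `p`
cyclotomic character.  A *`χ`-cocycle on `D` of finite level* is a function `w : G_ℚ → ZMod p` with
`w (σ τ) = w σ + χ σ * w τ` for `σ τ ∈ D` and `w (σ s) = w σ` for `σ ∈ D`, `s ∈ D ∩ Fix F`, `F` a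
number field.

* `s56k_kumP p`, `s56k_kumU p` : the Kummer cocycles of `p` and of `1 + p` (cocycles on all of
  `G_ℚ`, of finite level).
* **`s56k_span_zmod`** : every `χ`-cocycle on `D` of finite level is
  `a • kumP + b • kumU + (χ - 1) t` on `D`.

Proof: Hilbert 90 (`tl_h90_padic`, S55) in `Ω = PadicAlgCl p` for the multiplicative cocycle
`g ↦ ζ ^ w(g)` of the local Galois group `Gal(Ω/ℚ_p)` (which maps ONTO `D`: `S55/LocalImage`):
`ζ ^ w(g) = g β / β`, `β ^ p ∈ ℚ_p^×`; and `ℚ_p^× = p^ℤ (1+p)^ℤ (ℚ_p^×)^p` (`s56k_padic_decomp`).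
-/

set_option autoImplicit false
set_option linter.unusedSectionVars false
set_option linter.style.haveILetI false

namespace Fermat.Agent.S56

open Fermat.Agent.S55

local notation "Qbar" => AlgebraicClosure ℚ
local notation "GQ" => (AlgebraicClosure ℚ ≃ₐ[ℚ] AlgebraicClosure ℚ)

variable (p : ℕ) [hp : Fact p.Prime]

/-- a `p`-th root of `p` in `Q̄`. -/
noncomputable def s56k_rootP : Qbar :=
  (IsAlgClosed.exists_pow_nat_eq ((p : ℕ) : Qbar) hp.out.pos).choose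

theorem s56k_rootP_pow : s56k_rootP p ^ p = ((p : ℕ) : Qbar) :=
  (IsAlgClosed.exists_pow_nat_eq ((p : ℕ) : Qbar) hp.out.pos).choose_spec

/-- a `p`-th root of `1 + p` in `Q̄`. -/
noncomputable def s56k_rootU : Qbar :=
  (IsAlgClosed.exists_pow_nat_eq (1 + ((p : ℕ) : Qbar)) hp.out.pos).choose

theorem s56k_rootU_pow : s56k_rootU p ^ p = 1 + ((p : ℕ) : Qbar) :=
  (IsAlgClosed.exists_pow_nat_eq (1 + ((p : ℕ) : Qbar)) hp.out.pos).choose_spec

theorem s56k_rootP_ne_zero : s56k_rootP p ≠ 0 := by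
  intro h
  have := s56k_rootP_pow p
  rw [h, zero_pow hp.out.ne_zero] at this
  exact (Nat.cast_ne_zero.2 hp.out.ne_zero) this.symm

theorem s56k_rootU_ne_zero : s56k_rootU p ≠ 0 := by
  intro h
  have := s56k_rootU_pow p
  rw [h, zero_pow hp.out.ne_zero] at this
  have h2 : ((1 + p : ℕ) : Qbar) ≠ 0 := Nat.cast_ne_zero.2 (by omega)
  apply h2
  rw [Nat.cast_add, Nat.cast_one]
  exact this.symm

theorem s56k_rootP_fix (σ : GQ) : σ (s56k_rootP p ^ p) = s56k_rootP p ^ p := by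
  rw [s56k_rootP_pow, map_natCast]

theorem s56k_rootU_fix (σ : GQ) : σ (s56k_rootU p ^ p) = s56k_rootU p ^ p := by
  rw [s56k_rootU_pow, map_add, map_one, map_natCast]

/-- **The Kummer cocycle of `p`.** -/
noncomputable def s56k_kumP : GQ → ZMod p := s56k_kum p (s56k_rootP p)

/-- **The Kummer cocycle of `1 + p`.** -/
noncomputable def s56k_kumU : GQ → ZMod p := s56k_kum p (s56k_rootU p)

theorem s56k_kumP_cocycle (σ τ : GQ) :
    s56k_kumP p (σ * τ) = s56k_kumP p σ + s56k_chi p σ * s56k_kumP p τ :=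
  s56k_kum_cocycle (s56k_rootP_ne_zero p) (s56k_rootP_fix p σ) (s56k_rootP_fix p τ)

theorem s56k_kumU_cocycle (σ τ : GQ) :
    s56k_kumU p (σ * τ) = s56k_kumU p σ + s56k_chi p σ * s56k_kumU p τ :=
  s56k_kum_cocycle (s56k_rootU_ne_zero p) (s56k_rootU_fix p σ) (s56k_rootU_fix p τ)

/-- The number field `ℚ(ζ_p, p^{1/p}, (1+p)^{1/p})`: a common level of `χ`, `kumP`, `kumU`. -/
noncomputable def s56k_level : IntermediateField ℚ Qbar :=
  IntermediateField.adjoin ℚ {s56k_zeta p, s56k_rootP p, s56k_rootU p}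

instance s56k_level_finiteDimensional : FiniteDimensional ℚ (s56k_level p) := by
  apply IntermediateField.finiteDimensional_adjoin
  intro x _
  exact ((AlgebraicClosure.isAlgebraic ℚ).isAlgebraic x).isIntegral

theorem s56k_level_fix {s : GQ} (hs : s ∈ (s56k_level p).fixingSubgroup) :
    s (s56k_zeta p) = s56k_zeta p ∧ s (s56k_rootP p) = s56k_rootP p ∧
      s (s56k_rootU p) = s56k_rootU p := by
  rw [IntermediateField.mem_fixingSubgroup_iff] at hs
  refine ⟨hs _ ?_, hs _ ?_, hs _ ?_⟩ <;>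
    exact IntermediateField.subset_adjoin ℚ _ (by simp)

theorem s56k_chi_level (σ s : GQ) (hs : s ∈ (s56k_level p).fixingSubgroup) :
    s56k_chi p (σ * s) = s56k_chi p σ := by
  rw [s56k_chi_mul, s56k_chi_of_fix p s (s56k_level_fix p hs).1, mul_one]

theorem s56k_kumP_level (σ s : GQ) (hs : s ∈ (s56k_level p).fixingSubgroup) :
    s56k_kumP p (σ * s) = s56k_kumP p σ :=
  s56k_kum_mul_of_fix _ σ s (s56k_level_fix p hs).2.1

theorem s56k_kumU_level (σ s : GQ) (hs : s ∈ (s56k_level p).fixingSubgroup) :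
    s56k_kumU p (σ * s) = s56k_kumU p σ :=
  s56k_kum_mul_of_fix _ σ s (s56k_level_fix p hs).2.2

section Local

local notation "Ω" => PadicAlgCl p
local notation "ι" => padicEmbedding p

theorem s56k_iota_injective : Function.Injective (ι) := (ι).toRingHom.injective

/-- the local Galois group acts on `ι (ζ ^ t)` through `χ`. -/
theorem s56k_local_E (g : Ω ≃ₐ[ℚ_[p]] Ω) (t : ZMod p) :
    g (ι (s56k_E (s56k_zeta p) t))
      = ι (s56k_E (s56k_zeta p) (s56k_chi p (localGaloisToGlobal p g) * t)) := by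
  rw [← padicEmbedding_localGaloisToGlobal, s56k_map_E]

/-- the local Galois group acts on `ι β` through the Kummer function of `β`. -/
theorem s56k_local_kum (g : Ω ≃ₐ[ℚ_[p]] Ω) {β : Qbar} (hβ : β ≠ 0)
    (hfix : ∀ σ : GQ, σ (β ^ p) = β ^ p) :
    g (ι β) = ι (s56k_E (s56k_zeta p) (s56k_kum p β (localGaloisToGlobal p g))) * ι β := by
  rw [← padicEmbedding_localGaloisToGlobal, s56k_kum_spec hβ (hfix _), map_mul]

/-- **(KUM-p), `𝔽_p`-form.**  Every `χ`-cocycle of finite level on the decomposition group `D` of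
`padicPlace p` is, on `D`, a combination of the Kummer cocycles of `p` and `1 + p` and of a
coboundary. -/
theorem s56k_span_zmod (hp2 : p ≠ 2) (w : GQ → ZMod p)
    (hw : ∀ σ ∈ (padicPlace p).decompositionSubgroup ℚ,
      ∀ τ ∈ (padicPlace p).decompositionSubgroup ℚ,
        w (σ * τ) = w σ + s56k_chi p σ * w τ)
    (hlev : ∃ F : IntermediateField ℚ Qbar, FiniteDimensional ℚ F ∧
      ∀ σ ∈ (padicPlace p).decompositionSubgroup ℚ,
        ∀ s ∈ (padicPlace p).decompositionSubgroup ℚ, s ∈ F.fixingSubgroup →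
          w (σ * s) = w σ) :
    ∃ a b t : ZMod p, ∀ σ ∈ (padicPlace p).decompositionSubgroup ℚ,
      w σ = a * s56k_kumP p σ + b * s56k_kumU p σ + (s56k_chi p σ - 1) * t := by
  classical
  obtain ⟨F, hF, hlevF⟩ := hlev
  haveI := hF
  have hpp : p.Prime := hp.out
  have hζ := s56k_zeta_spec p
  have hζp := s56k_zeta_pow p
  have hD : ∀ g : Ω ≃ₐ[ℚ_[p]] Ω,
      localGaloisToGlobal p g ∈ (padicPlace p).decompositionSubgroup ℚ :=
    localGaloisToGlobal_mem_decompositionSubgroup p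
  -- the multiplicative cocycle
  let c : ↥(⊤ : Subgroup (Ω ≃ₐ[ℚ_[p]] Ω)) → (Ω)ˣ := fun h =>
    Units.mk0 (ι (s56k_E (s56k_zeta p) (w (localGaloisToGlobal p h.1))))
      ((map_ne_zero_iff _ (s56k_iota_injective p)).2 (s56k_E_ne_zero hζp _))
  have hc : ∀ g h : ↥(⊤ : Subgroup (Ω ≃ₐ[ℚ_[p]] Ω)), ((c (g * h) : (Ω)ˣ) : Ω)
      = (c g : Ω) * (g : Ω ≃ₐ[ℚ_[p]] Ω) (c h : Ω) := by
    intro g h
    show ι (s56k_E (s56k_zeta p) (w (localGaloisToGlobal p (g.1 * h.1))))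
      = ι (s56k_E (s56k_zeta p) (w (localGaloisToGlobal p g.1)))
        * g.1 (ι (s56k_E (s56k_zeta p) (w (localGaloisToGlobal p h.1))))
    rw [s56k_local_E, map_mul, hw _ (hD _) _ (hD _), s56k_E_add hζp, map_mul]
  have hinv : ∀ g s : ↥(⊤ : Subgroup (Ω ≃ₐ[ℚ_[p]] Ω)),
      localGaloisToGlobal p (s : Ω ≃ₐ[ℚ_[p]] Ω) ∈ F.fixingSubgroup → c (g * s) = c g := by
    intro g s hs
    apply Units.ext
    show ι (s56k_E (s56k_zeta p) (w (localGaloisToGlobal p (g.1 * s.1))))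
      = ι (s56k_E (s56k_zeta p) (w (localGaloisToGlobal p g.1)))
    rw [map_mul, hlevF _ (hD _) _ (hD _) hs]
  obtain ⟨b0, hb0⟩ := tl_h90_padic p ⊤ F c hc hinv
  -- `β = b0⁻¹` satisfies `g β = ζ ^ w(g) β`
  set β : Ω := ((b0⁻¹ : (Ω)ˣ) : Ω) with hβdef
  have hβ0 : β ≠ 0 := Units.ne_zero _
  have hβ : ∀ g : Ω ≃ₐ[ℚ_[p]] Ω,
      g β = ι (s56k_E (s56k_zeta p) (w (localGaloisToGlobal p g))) * β := by
    intro g
    have h1 := hb0 ⟨g, Subgroup.mem_top g⟩
    have h2 : ι (s56k_E (s56k_zeta p) (w (localGaloisToGlobal p g))) * g (b0 : Ω) = (b0 : Ω) := h1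
    have hb00 : (b0 : Ω) ≠ 0 := Units.ne_zero _
    have hgb : g (b0 : Ω) ≠ 0 := (map_ne_zero_iff _ g.injective).2 hb00
    have hE0 : ι (s56k_E (s56k_zeta p) (w (localGaloisToGlobal p g))) ≠ 0 :=
      (map_ne_zero_iff _ (s56k_iota_injective p)).2 (s56k_E_ne_zero hζp _)
    have h3 : g (b0 : Ω) = (ι (s56k_E (s56k_zeta p) (w (localGaloisToGlobal p g))))⁻¹ * (b0 : Ω) :=
      (eq_inv_mul_iff_mul_eq₀ hE0).2 h2
    rw [hβdef, Units.val_inv_eq_inv_val, map_inv₀, h3, mul_inv, inv_inv]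
  -- `β ^ p ∈ ℚ_p`
  have hβp : ∀ g : Ω ≃ₐ[ℚ_[p]] Ω, g (β ^ p) = β ^ p := by
    intro g
    rw [map_pow, hβ g, mul_pow, ← map_pow, s56k_E_pow_p hζp, map_one, one_mul]
  obtain ⟨x, hx⟩ := (InfiniteGalois.mem_range_algebraMap_iff_fixed (k := ℚ_[p]) (K := Ω)
    (β ^ p)).2 hβp
  have hx0 : x ≠ 0 := by
    intro h
    rw [h, map_zero] at hx
    exact pow_ne_zero p hβ0 hx.symm
  obtain ⟨a, b, y, hy0, hxy⟩ := s56k_padic_decomp p hp2 x hx0
  -- the comparison element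
  set y' : Ω := algebraMap ℚ_[p] Ω y with hy'
  have hy'0 : y' ≠ 0 := (map_ne_zero_iff _ (algebraMap ℚ_[p] Ω).injective).2 hy0
  have hP0 : ι (s56k_rootP p) ≠ 0 :=
    (map_ne_zero_iff _ (s56k_iota_injective p)).2 (s56k_rootP_ne_zero p)
  have hU0 : ι (s56k_rootU p) ≠ 0 :=
    (map_ne_zero_iff _ (s56k_iota_injective p)).2 (s56k_rootU_ne_zero p)
  set γ : Ω := ι (s56k_rootP p) ^ a * ι (s56k_rootU p) ^ b * y' with hγ
  have hγ0 : γ ≠ 0 := mul_ne_zero (mul_ne_zero (zpow_ne_zero _ hP0) (zpow_ne_zero _ hU0)) hy'0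
  have hγp : γ ^ p = β ^ p := by
    rw [← hx, hxy, hγ, mul_pow, mul_pow, ← zpow_natCast, ← zpow_natCast (ι (s56k_rootU p) ^ b),
      ← zpow_mul, ← zpow_mul, mul_comm a, mul_comm b, zpow_mul, zpow_mul, zpow_natCast,
      zpow_natCast, ← map_pow, ← map_pow, s56k_rootP_pow, s56k_rootU_pow]
    simp only [map_mul, map_zpow₀, map_pow, map_add, map_one, map_natCast, hy']
  -- `β = ζ ^ t · γ`
  have hζ' : IsPrimitiveRoot (ι (s56k_zeta p)) p := hζ.map_of_injective (s56k_iota_injective p)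
  obtain ⟨t, ht⟩ : ∃ t : ZMod p, ι (s56k_E (s56k_zeta p) t) * γ = β := by
    have h1 : (β / γ) ^ p = 1 := by rw [div_pow, hγp, div_self (pow_ne_zero _ hβ0)]
    obtain ⟨i, -, hi⟩ := hζ'.eq_pow_of_pow_eq_one h1
    refine ⟨(i : ZMod p), ?_⟩
    rw [s56k_E_natCast hζp, map_pow, hi, div_mul_cancel₀ _ hγ0]
  refine ⟨(a : ZMod p), (b : ZMod p), t, ?_⟩
  intro σ hσ
  obtain ⟨g, rfl⟩ := (li_mem_decompositionSubgroup_iff p).1 hσ
  -- compute `g β` in two ways
  have h1 : g β = ι (s56k_E (s56k_zeta p) (w (localGaloisToGlobal p g) + t)) * γ := by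
    rw [hβ g, ← ht, s56k_E_add hζp, map_mul]
    ring
  have h2 : g β = ι (s56k_E (s56k_zeta p) (s56k_chi p (localGaloisToGlobal p g) * t
      + ((a : ZMod p) * s56k_kumP p (localGaloisToGlobal p g)
        + (b : ZMod p) * s56k_kumU p (localGaloisToGlobal p g)))) * γ := by
    rw [← ht, map_mul, s56k_local_E, hγ, map_mul, map_mul, map_zpow₀, map_zpow₀,
      s56k_local_kum p g (s56k_rootP_ne_zero p) (s56k_rootP_fix p),
      s56k_local_kum p g (s56k_rootU_ne_zero p) (s56k_rootU_fix p),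
      mul_zpow, mul_zpow, AlgEquiv.commutes, s56k_E_add hζp, s56k_E_add hζp,
      s56k_E_zsmul hζp, s56k_E_zsmul hζp]
    simp only [map_mul, map_zpow₀, s56k_kumP, s56k_kumU, hy']
    ring
  have h3 := h1.symm.trans h2
  have h4 := s56k_E_injective hζ (s56k_iota_injective p (mul_right_cancel₀ hγ0 h3))
  linear_combination h4
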