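import Mathlib
import Fermat.Agent.S56.Kum.Main

/-!
# S56, node [LOC-p-ORD], cell (C) [KUM]: `dim_k H¹_lc(D_p, k(ω)) ≤ 2` for a finite field `k ⊇ 𝔽_p`
(prefix `s56k_`)

`D = (padicPlace p).decompositionSubgroup ℚ`, `p` odd, `k` a finite field of characteristic `p`,
`ω σ = ((s56k_chi p σ).val : k)` the mod `p` cyclotomic character with values in `k`.

* `s56k_IsCoc p k w` : `w : G_ℚ → k` is an `ω`-cocycle ON `D` of finite level.
* **`s56k_span`** : every such `w` is `α • kumP + β • kumU + (ω - 1) x` on `D` (`α β x : k`).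
* **`s56k_three`** : any three such cocycles are `k`-linearly dependent modulo coboundaries.
* `s56k_span'`, `s56k_three'` : the same with an abstract character `ω : G_ℚ → k` satisfying
  `ω σ = a` whenever `σ μ = μ ^ a` on `μ_p` (the spelling of the frozen `IsStrictOrdinaryAt`).
-/

set_option autoImplicit false
set_option linter.unusedSectionVars false
set_option linter.style.haveILetI false

namespace Fermat.Agent.S56

local notation "Qbar" => AlgebraicClosure ℚ
local notation "GQ" => (AlgebraicClosure ℚ ≃ₐ[ℚ] AlgebraicClosure ℚ)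

variable (p : ℕ) [hp : Fact p.Prime] (k : Type*) [Field k] [CharP k p]

/-- `ω`-cocycles on `D_p` of finite level with values in `k` (`ω` given as a function). -/
def s56k_IsCocFor (ω : GQ → k) (w : GQ → k) : Prop :=
  (∀ σ ∈ (padicPlace p).decompositionSubgroup ℚ, ∀ τ ∈ (padicPlace p).decompositionSubgroup ℚ,
      w (σ * τ) = w σ + ω σ * w τ) ∧
    ∃ F : IntermediateField ℚ Qbar, FiniteDimensional ℚ F ∧
      ∀ σ ∈ (padicPlace p).decompositionSubgroup ℚ,
        ∀ s ∈ (padicPlace p).decompositionSubgroup ℚ, s ∈ F.fixingSubgroup → w (σ * s) = w σ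

/-- the mod `p` cyclotomic character with values in `k`. -/
noncomputable def s56k_omega (σ : GQ) : k := (((s56k_chi p σ).val : ℕ) : k)

/-- `ω`-cocycles on `D_p` of finite level with values in `k`. -/
def s56k_IsCoc (w : GQ → k) : Prop := s56k_IsCocFor p k (s56k_omega p k) w

variable {k}

theorem s56k_natCast_val_add (s t : ZMod p) :
    (((s + t).val : ℕ) : k) = ((s.val : ℕ) : k) + ((t.val : ℕ) : k) := by
  rw [ZMod.natCast_val, ZMod.natCast_val, ZMod.natCast_val,
    ← ZMod.castHom_apply (h := dvd_refl p), ← ZMod.castHom_apply (h := dvd_refl p),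
    ← ZMod.castHom_apply (h := dvd_refl p), map_add]

theorem s56k_natCast_val_mul (s t : ZMod p) :
    (((s * t).val : ℕ) : k) = ((s.val : ℕ) : k) * ((t.val : ℕ) : k) := by
  rw [ZMod.natCast_val, ZMod.natCast_val, ZMod.natCast_val,
    ← ZMod.castHom_apply (h := dvd_refl p), ← ZMod.castHom_apply (h := dvd_refl p),
    ← ZMod.castHom_apply (h := dvd_refl p), map_mul]

theorem s56k_natCast_val_one : (((1 : ZMod p).val : ℕ) : k) = 1 := by
  rw [ZMod.natCast_val, ← ZMod.castHom_apply (h := dvd_refl p), map_one]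

variable (k)

theorem s56k_omega_mul (σ τ : GQ) : s56k_omega p k (σ * τ) = s56k_omega p k σ * s56k_omega p k τ := by
  rw [s56k_omega, s56k_chi_mul, s56k_natCast_val_mul]; rfl

/-- `ω` has the defining property of the frozen statements. -/
theorem s56k_omega_eq (σ : GQ) (a : ℕ) (h : ∀ μ : Qbar, μ ^ p = 1 → σ μ = μ ^ a) :
    s56k_omega p k σ = (a : k) :=
  s56k_chi_val_eq p σ a h

theorem s56k_omega_spec (σ : GQ) (μ : Qbar) (hμ : μ ^ p = 1) :
    σ μ = μ ^ (s56k_chi p σ).val := s56k_chi_spec p σ μ hμ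

/-- the Kummer cocycle of `p` with values in `k` is an `ω`-cocycle of finite level. -/
theorem s56k_kumP_isCoc : s56k_IsCoc p k (fun σ => (((s56k_kumP p σ).val : ℕ) : k)) := by
  refine ⟨fun σ _ τ _ => ?_, s56k_level p, inferInstance, fun σ _ s _ hs => ?_⟩
  · show (((s56k_kumP p (σ * τ)).val : ℕ) : k) = _
    rw [s56k_kumP_cocycle, s56k_natCast_val_add, s56k_natCast_val_mul]; rfl
  · show (((s56k_kumP p (σ * s)).val : ℕ) : k) = _
    rw [s56k_kumP_level p σ s hs]

/-- the Kummer cocycle of `1 + p` with values in `k` is an `ω`-cocycle of finite level. -/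
theorem s56k_kumU_isCoc : s56k_IsCoc p k (fun σ => (((s56k_kumU p σ).val : ℕ) : k)) := by
  refine ⟨fun σ _ τ _ => ?_, s56k_level p, inferInstance, fun σ _ s _ hs => ?_⟩
  · show (((s56k_kumU p (σ * τ)).val : ℕ) : k) = _
    rw [s56k_kumU_cocycle, s56k_natCast_val_add, s56k_natCast_val_mul]; rfl
  · show (((s56k_kumU p (σ * s)).val : ℕ) : k) = _
    rw [s56k_kumU_level p σ s hs]

variable {k}

/-- **(KUM-p), `k`-form**: `H¹_lc(D_p, k(ω))` is spanned by the Kummer classes of `p` and
`1 + p`. -/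
theorem s56k_span [Finite k] (hp2 : p ≠ 2) (w : GQ → k) (hw : s56k_IsCoc p k w) :
    ∃ α β x : k, ∀ σ ∈ (padicPlace p).decompositionSubgroup ℚ,
      w σ = α * (((s56k_kumP p σ).val : ℕ) : k) + β * (((s56k_kumU p σ).val : ℕ) : k)
        + (s56k_omega p k σ - 1) * x := by
  classical
  obtain ⟨hcoc, F, hF, hlev⟩ := hw
  letI := ZMod.algebra k p
  haveI : Module.Finite (ZMod p) k := inferInstance
  let B := Module.finBasis (ZMod p) k
  have hcast : ∀ t : ZMod p, (((t.val : ℕ) : k)) = algebraMap (ZMod p) k t := by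
    intro t
    rw [ZMod.natCast_val]
    rfl
  -- coordinates
  have hj : ∀ j, ∃ a b t : ZMod p, ∀ σ ∈ (padicPlace p).decompositionSubgroup ℚ,
      B.repr (w σ) j = a * s56k_kumP p σ + b * s56k_kumU p σ + (s56k_chi p σ - 1) * t := by
    intro j
    apply s56k_span_zmod p hp2 (fun σ => B.repr (w σ) j)
    · intro σ hσ τ hτ
      show B.repr (w (σ * τ)) j = B.repr (w σ) j + s56k_chi p σ * B.repr (w τ) j
      rw [hcoc σ hσ τ hτ, s56k_omega, hcast, ← Algebra.smul_def, map_add, map_smul,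
        Finsupp.add_apply, Finsupp.smul_apply, smul_eq_mul]
    · refine ⟨F, hF, fun σ hσ s hs hsF => ?_⟩
      show B.repr (w (σ * s)) j = B.repr (w σ) j
      rw [hlev σ hσ s hs hsF]
  choose a b t habt using hj
  refine ⟨∑ j, a j • B j, ∑ j, b j • B j, ∑ j, t j • B j, fun σ hσ => ?_⟩
  conv_lhs => rw [← B.sum_repr (w σ)]
  rw [Finset.sum_mul, Finset.sum_mul, Finset.mul_sum, ← Finset.sum_add_distrib,
    ← Finset.sum_add_distrib]
  refine Finset.sum_congr rfl fun j _ => ?_
  rw [habt j σ hσ, s56k_omega, hcast, hcast, hcast, Algebra.smul_def, Algebra.smul_def,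
    Algebra.smul_def, Algebra.smul_def]
  simp only [map_add, map_mul, map_sub, map_one]
  ring

/-- **(KUM-p), dimension form**: any three `ω`-cocycles of finite level on `D_p` with values in `k`
are `k`-linearly dependent modulo coboundaries. -/
theorem s56k_three [Finite k] (hp2 : p ≠ 2) (w : Fin 3 → GQ → k)
    (hw : ∀ i, s56k_IsCoc p k (w i)) :
    ∃ (c : Fin 3 → k) (x : k), (∃ i, c i ≠ 0) ∧
      ∀ σ ∈ (padicPlace p).decompositionSubgroup ℚ,
        ∑ i, c i * w i σ = (s56k_omega p k σ - 1) * x := by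
  classical
  have h := fun i => s56k_span p hp2 (w i) (hw i)
  choose α β x hαβx using h
  -- three vectors of `k²`
  let v : Fin 3 → (Fin 2 → k) := fun i => ![α i, β i]
  have hdep : ¬ LinearIndependent k v := by
    intro hli
    have := hli.fintype_card_le_finrank
    simp at this
  obtain ⟨c, hc, hc0⟩ := Fintype.not_linearIndependent_iff.1 hdep
  have h0 : ∑ i, c i * α i = 0 := by
    have := congrFun hc 0
    simpa [v, Finset.sum_apply] using this
  have h1 : ∑ i, c i * β i = 0 := by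
    have := congrFun hc 1
    simpa [v, Finset.sum_apply] using this
  refine ⟨c, ∑ i, c i * x i, hc0, fun σ hσ => ?_⟩
  calc ∑ i, c i * w i σ
      = ∑ i, (c i * α i * (((s56k_kumP p σ).val : ℕ) : k)
          + c i * β i * (((s56k_kumU p σ).val : ℕ) : k)
          + (s56k_omega p k σ - 1) * (c i * x i)) := by
        refine Finset.sum_congr rfl fun i _ => ?_
        rw [hαβx i σ hσ]; ring
    _ = (∑ i, c i * α i) * (((s56k_kumP p σ).val : ℕ) : k)
          + (∑ i, c i * β i) * (((s56k_kumU p σ).val : ℕ) : k)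
          + (s56k_omega p k σ - 1) * ∑ i, c i * x i := by
        rw [Finset.sum_add_distrib, Finset.sum_add_distrib, Finset.sum_mul, Finset.sum_mul,
          Finset.mul_sum]
    _ = _ := by rw [h0, h1]; ring

/-- an abstract character with the defining property of the frozen statements is `ω` on `D_p`
(indeed everywhere). -/
theorem s56k_omega_unique (ω : GQ → k)
    (hω : ∀ σ : GQ, ∀ a : ℕ, (∀ μ : Qbar, μ ^ p = 1 → σ μ = μ ^ a) → ω σ = (a : k)) (σ : GQ) :
    ω σ = s56k_omega p k σ :=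
  hω σ _ (s56k_chi_spec p σ)

theorem s56k_isCoc_of_for (ω : GQ → k)
    (hω : ∀ σ ∈ (padicPlace p).decompositionSubgroup ℚ, ω σ = s56k_omega p k σ)
    (w : GQ → k) (hw : s56k_IsCocFor p k ω w) : s56k_IsCoc p k w := by
  refine ⟨fun σ hσ τ hτ => ?_, hw.2⟩
  rw [hw.1 σ hσ τ hτ, hω σ hσ]

/-- `s56k_span` for an abstract character `ω` agreeing with the cyclotomic character on `D_p`. -/
theorem s56k_span' [Finite k] (hp2 : p ≠ 2) (ω : GQ → k)
    (hω : ∀ σ ∈ (padicPlace p).decompositionSubgroup ℚ, ω σ = s56k_omega p k σ)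
    (w : GQ → k) (hw : s56k_IsCocFor p k ω w) :
    ∃ α β x : k, ∀ σ ∈ (padicPlace p).decompositionSubgroup ℚ,
      w σ = α * (((s56k_kumP p σ).val : ℕ) : k) + β * (((s56k_kumU p σ).val : ℕ) : k)
        + (ω σ - 1) * x := by
  obtain ⟨α, β, x, h⟩ := s56k_span p hp2 w (s56k_isCoc_of_for p ω hω w hw)
  exact ⟨α, β, x, fun σ hσ => by rw [h σ hσ, hω σ hσ]⟩

/-- `s56k_three` for an abstract character `ω` agreeing with the cyclotomic character on `D_p`. -/
theorem s56k_three' [Finite k] (hp2 : p ≠ 2) (ω : GQ → k)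
    (hω : ∀ σ ∈ (padicPlace p).decompositionSubgroup ℚ, ω σ = s56k_omega p k σ)
    (w : Fin 3 → GQ → k) (hw : ∀ i, s56k_IsCocFor p k ω (w i)) :
    ∃ (c : Fin 3 → k) (x : k), (∃ i, c i ≠ 0) ∧
      ∀ σ ∈ (padicPlace p).decompositionSubgroup ℚ,
        ∑ i, c i * w i σ = (ω σ - 1) * x := by
  obtain ⟨c, x, hc, h⟩ := s56k_three p hp2 w (fun i => s56k_isCoc_of_for p ω hω (w i) (hw i))
  exact ⟨c, x, hc, fun σ hσ => by rw [h σ hσ, hω σ hσ]⟩

end Fermat.Agent.S56
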