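import Mathlib
import Fermat.Agent.S56.Kum.Field
import Fermat.Agent.S56.LocP.KumSeam

/-!
# S56, node [LOC-p-ORD], cell (C) [KUM]: the seam `s56o_Kum_stmt` (prefix `s56k_`)

`s56k_main : s56o_Kum_stmt` : `dim_k H¹_lc(D_p, k(ω)) ≤ 2` in the spanning form of
`LocP/KumSeam.lean`, with `f₁, f₂` the Kummer cocycles of `p` and of `1 + p`.
-/

set_option autoImplicit false
set_option linter.unusedSectionVars false
set_option linter.style.haveILetI false

namespace Fermat.Agent.S56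

open ExtCitation

local notation "Qbar" => AlgebraicClosure ℚ
local notation "GQ" => (AlgebraicClosure ℚ ≃ₐ[ℚ] AlgebraicClosure ℚ)

variable (p : ℕ) [hp : Fact p.Prime]

/-- the defining property of the prelude's `cycloExp`. -/
theorem s56k_cycloExp_spec (σ : GQ) (μ : Qbar) (hμ : μ ^ p = 1) : σ μ = μ ^ cycloExp p σ := by
  haveI : NeZero p := ⟨hp.out.ne_zero⟩
  have hu : IsUnit μ := IsUnit.of_pow_eq_one hμ (NeZero.ne p)
  obtain ⟨u, rfl⟩ := hu
  have hmem : u ∈ rootsOfUnity p Qbar := by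
    rw [mem_rootsOfUnity]
    exact Units.ext (by simpa using hμ)
  exact modularCyclotomicCharacter.spec Qbar (card_rootsOfUnity_eq_self p)
    (σ : Qbar ≃+* Qbar) hmem

/-- `s56k_chi` is the prelude's cyclotomic exponent. -/
theorem s56k_chi_eq_cycloExp (σ : GQ) : s56k_chi p σ = (cycloExp p σ : ZMod p) :=
  s56k_chi_eq p σ _ (s56k_cycloExp_spec p σ)

theorem s56k_omega_eq_cycloExp (k : Type*) [Field k] [CharP k p] (σ : GQ) :
    s56k_omega p k σ = (cycloExp p σ : k) :=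
  s56k_omega_eq p k σ _ (s56k_cycloExp_spec p σ)

/-- the two vocabularies for cocycles agree. -/
theorem s56k_isZ_iff (k : Type) [Field k] [CharP k p] (f : GQ → k) :
    s56o_IsZ p ((padicPlace p).decompositionSubgroup ℚ) f ↔ s56k_IsCoc p k f := by
  unfold s56o_IsZ s56k_IsCoc s56k_IsCocFor
  constructor
  · rintro ⟨h1, L, hL, h2⟩
    refine ⟨fun σ hσ τ hτ => ?_, L, hL, fun σ hσ s hs hsL => ?_⟩
    · rw [h1 σ hσ τ hτ, s56k_omega_eq_cycloExp]
    · exact h2 σ hσ s hs ((IntermediateField.mem_fixingSubgroup_iff L s).1 hsL)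
  · rintro ⟨h1, L, hL, h2⟩
    refine ⟨fun σ hσ τ hτ => ?_, L, hL, fun σ hσ s hs hsL => ?_⟩
    · rw [h1 σ hσ τ hτ, s56k_omega_eq_cycloExp]
    · exact h2 σ hσ s hs ((IntermediateField.mem_fixingSubgroup_iff L s).2 hsL)

/-- **(C) [KUM]**: `dim_k H¹_lc(D_p, k(ω)) ≤ 2`, the seam of `LocP/KumSeam.lean`. -/
theorem s56k_main : s56o_Kum_stmt := by
  intro p _ hp2 k _ _ _
  haveI : CharP k p :=
    charP_of_injective_algebraMap (algebraMap (ZMod p) k).injective p
  refine ⟨fun σ => (((s56k_kumP p σ).val : ℕ) : k), fun σ => (((s56k_kumU p σ).val : ℕ) : k),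
    (s56k_isZ_iff p k _).2 (s56k_kumP_isCoc p k), (s56k_isZ_iff p k _).2 (s56k_kumU_isCoc p k),
    fun f hf => ?_⟩
  obtain ⟨α, β, x, h⟩ := s56k_span p hp2 f ((s56k_isZ_iff p k f).1 hf)
  exact ⟨α, β, x, fun σ hσ => by rw [h σ hσ, s56k_omega_eq_cycloExp]⟩

end Fermat.Agent.S56
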